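/-
Project TW (Taylor–Wiles primes, S56) — part TW-Core (captain helper63):
THE TOP-LEVEL ASSEMBLY.  INTERFACE FILE: the statements which the assembly
`TW/Core/Asm.lean` consumes and which are NOT yet a `Prop` of another sub-project's Plan file.
Mathematics: NOTES/TW-Core.md.   ROUTE 1 (ruling 21:10Z): Greenberg–Wiles in the form `F.StmtGW`.

With `A = ad⁰ ρ̄` (`S.ad0Rep p ρbar`), `B = A*(1)` (`A.dualTwist (cycloChar p)`), `f = [k : 𝔽_p]`,
`T = primesOf (Smin ∪ Q)`, `D = concreteDatum p hp2 T …`: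
  `F.StmtGWFinal` + (EC) [`E.StmtEC`] + `LocExist D` [`L.StmtLocExistQ`] + `F.HasPDepth D`
  [`E.StmtPDepthTower`] + local terms [TW-L: `StmtAdMin`, `StmtAdTw`, `StmtAdOrd`; TW-W: `W.StmtWFlat`]
  + `H⁰ = 0` [TW-L: `StmtAdGlob0`] + dual Selmer group `= 0` [`StmtKillAll`, TW-G]
  ⇒ `dim Sel_Q(A) ≤ r·f` ⇒ (TW-S: `StmtSelCardOrd/Flat`) `TwTanCard … (|k|^r)` = `StmtCoreOrd/Flat`.

A piece `X` is DONE when `theorem stmtX : StmtX` (or `stmtX_of : … → StmtX`) is landed, sorry-free.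
-/
import Fermat.Agent.TW.Plan
import Fermat.Agent.TW.S.Plan
import Fermat.Agent.TW.L.Plan3
import Fermat.Agent.TW.L.Plan4
import Fermat.Agent.TW.F.PlanH2
import Fermat.Agent.TW.E.Plan3
import Fermat.Agent.TW.W.Plan

set_option autoImplicit false
set_option linter.unusedSectionVars false

noncomputable section

namespace Fermat.Agent.TW.Core

open CategoryTheory groupCohomology IsLocalRing Module
open Fermat.Agent.PT Fermat.Agent.PT.B Fermat.Agent.PT.F Fermat.Agent.S53
open Fermat.Agent.TW.S Fermat.Agent.TW.L Fermat.Agent.TW.F Fermat.Agent.TW.E Fermat.Agent.TW.W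
open ExtCitation

/-! ### TW-G: the Taylor–Wiles primes kill the dual Selmer group -/

/-- **G-kill** (owner: TW-G, "G-wire").  Under the hypotheses of S56 there is `r` such that for
every `n` there is a Taylor–Wiles family `qv : Fin r → ℕ` (`IsTWFamily`) such that a level class
of `ad⁰(1)` for the tower of `Smin ∪ Q` which is locally trivial at all `q ∈ Q` is `0`.
(`r := dim H¹_lev(G_{ℚ,Smin}, ad⁰(1))` (`F.stmtGloFin`); such a class is unramified at `Q`, hence a
level class for `Smin` (`S.StmtTow`); a nonzero class `ψ` is nontrivial at some `σ ∈ N` with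
distinct eigenvalues (`G.Sel.StmtGSel`), Chebotarev (`twc_exists_primes`) gives `q` with
`Frob_q ~ σ`, and `res_q ψ ≠ 0` (`ψ(Frob_q) ∉ (Frob_q - 1) ad⁰(1)`, L-tw); induction on the
dimension (`gkill_exists`), padding with arbitrary Taylor–Wiles primes (`G.Sel.StmtDist`).) -/
def StmtKillAll (𝒪 : Type) [CommRing 𝒪] [IsDomain 𝒪] [IsDiscreteValuationRing 𝒪]
    [IsAdicComplete (maximalIdeal 𝒪) 𝒪] [Finite (ResidueField 𝒪)] : Prop :=
  ∀ (p : ℕ) [Fact p.Prime] [CharP (ResidueField 𝒪) p]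
    (ρbar : ResidualGaloisRep (ResidueField 𝒪)) (S Smin : Finset ℕ),
    TWHyp 𝒪 p ρbar S Smin →
    ∃ r : ℕ, ∀ n : ℕ, ∃ qv : Fin r → ℕ, IsTWFamily p ρbar S n r qv ∧
      ∀ x ∈ levH1 (towerS (primesOf (Smin ∪ Finset.univ.image qv)))
          ((ad0Rep p ρbar).dualTwist (cycloChar p)),
        (∀ (i : Fin r) (hq : (qv i).Prime),
          letI : Fact (qv i).Prime := ⟨hq⟩
          (groupCohomology.map (localGaloisToGlobal (qv i))
            (𝟙 (locRep (qv i) ((ad0Rep p ρbar).dualTwist (cycloChar p)))) 1).hom x = 0) →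
        x = 0

/-! ### TW-L: complex conjugation -/

/-- **L-archdual** (owner: TW-L): complex conjugation `c` acts on `μ_p` by `-1`, so
`h⁰(c, A*(1)) + h⁰(c, A) = dim A` (`p` odd; `A = A⁺ ⊕ A⁻`, `A*(1)^{c} = (A⁻)^*`). -/
def StmtArchDual : Prop :=
  ∀ (p : ℕ) [Fact p.Prime], p ≠ 2 →
    ∀ (A : Rep.{0} (ZMod p) GQ) [FiniteDimensional (ZMod p) A],
      finrank (ZMod p) ↥((Rep.res archimedeanLoc (A.dualTwist (cycloChar p))).ρ.invariants) +
          finrank (ZMod p) ↥((Rep.res archimedeanLoc A).ρ.invariants) =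
        finrank (ZMod p) A.V

/-! ### TW-F -/

/-- **F-perp** (owner: TW-F): the exact annihilator of a local condition is a subspace.
(`F.StmtCupBasic`: additivity of the cup product in the second variable modulo coboundaries.) -/
def StmtPerpExists : Prop :=
  ∀ (p : ℕ) [Fact p.Prime] (G : Type) [Group G] (ι : Type) [Fintype ι] (Gloc : ι → Type)
    [∀ v, Group (Gloc v)] (D : PTDatum p G ι Gloc)
    (A B : Rep.{0} (ZMod p) G) (P : DualPair D.χ A B), TrivOnLevel D.𝒯 A → TrivOnLevel D.𝒯 B →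
    ∀ (v : ι) (L : Submodule (ZMod p) (H1 (Rep.res (D.r v) A))),
      ∃ L' : Submodule (ZMod p) (H1 (Rep.res (D.r v) B)), IsPerp D P v L L'

/-! ### TW-S / TW-L: glue -/

/-- **S-adlev** (owner: TW-S): `ad⁰ ρ̄` and `ad⁰ ρ̄(1)` are trivial on a level of the tower of `T`
if `ρ̄` is unramified outside `T ∋ p`.  (`PT.B.stmtKernelField`, `stmtCycloField`.) -/
def StmtAdLevel : Prop :=
  ∀ (p : ℕ) [Fact p.Prime] (k : Type) [Field k] [CharP k p] [Finite k]
    (ρbar : ResidualGaloisRep k) (T : Finset Nat.Primes), pPrime p ∈ T →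
    (∀ q : Nat.Primes, q ∉ T → ρbar.IsUnramifiedAt (q : ℕ)) →
    TrivOnLevel (towerS T) (ad0Rep p ρbar) ∧
      TrivOnLevel (towerS T) ((ad0Rep p ρbar).dualTwist (cycloChar p))

/-- **S-adrank** (owner: TW-S): `dim_{𝔽_p} ad⁰ ρ̄ = 3 f`. -/
def StmtAdRank : Prop :=
  ∀ (p : ℕ) [Fact p.Prime] (k : Type) [Field k] [CharP k p] [Algebra (ZMod p) k] [Finite k]
    (ρbar : ResidualGaloisRep k),
    finrank (ZMod p) (ad0Rep p ρbar).V = 3 * finrank (ZMod p) k

/-- **S-res, strict form** (owner: TW-S): if a strictly ordinary deformation of `ρ̄` to `k[ε]`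
with cyclotomic determinant exists, `ρ̄` has a STRICTLY ordinary line at `p` (`L.IsStrictOrdLine`:
the decomposition group acts on `L̄` by `χ̄ z`, on `V̄/L̄` by `z`).
(Reduce the line and the relation `x ≡ a z mod p` of `IsStrictOrdinaryAt` (with `n = 1`)
modulo `ε`.) -/
def StmtResStrict : Prop :=
  ∀ (𝒪 : Type) [CommRing 𝒪] [IsLocalRing 𝒪] (p : ℕ) [Fact p.Prime] [CharP (ResidueField 𝒪) p]
    [Algebra (ZMod p) (ResidueField 𝒪)]
    (ρbar : ResidualGaloisRep (ResidueField 𝒪))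
    (ρ : GaloisRepAdic (DualNumber (ResidueField 𝒪))),
    (letI : Algebra (ResidueField 𝒪) (ResidueField (DualNumber (ResidueField 𝒪))) := dnResAlg 𝒪
     ρ.residual.IsEquiv (ρbar.baseChange (ResidueField (DualNumber (ResidueField 𝒪))))) →
    ρ.IsStrictOrdinaryAt p →
    ∃ Lbar : Submodule (ResidueField 𝒪) ρbar.V, IsStrictOrdLine p ρbar Lbar

end Fermat.Agent.TW.Core

end
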