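/-
Project TW (S56) — TW-Core, THE TOP-LEVEL ASSEMBLY (helper63).
`StmtCoreOrd 𝒪` and `StmtCoreFlat 𝒪` (TW/Plan.lean) from the deliverables of the sub-projects
TW-S, TW-F, TW-E, TW-L, TW-W, TW-G.   Mathematics: NOTES/TW-Core.md.
-/
import Fermat.Agent.TW.Core.Plan

set_option autoImplicit false
set_option linter.unusedSectionVars false
set_option linter.unusedVariables false
set_option linter.style.haveILetI false

noncomputable section

namespace Fermat.Agent.TW.Core

open CategoryTheory groupCohomology IsLocalRing Module Polynomial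
open Fermat.Agent.PT Fermat.Agent.PT.B Fermat.Agent.PT.F Fermat.Agent.S53
open Fermat.Agent.TW.S Fermat.Agent.TW.L Fermat.Agent.TW.F Fermat.Agent.TW.E Fermat.Agent.TW.W
open ExtCitation

/-! ### Generalities -/

/-- monotonicity of `TwTanCard` -/
theorem casm_twTanCard_mono {𝒪 : Type} [CommRing 𝒪] [IsDomain 𝒪] [IsDiscreteValuationRing 𝒪]
    [IsAdicComplete (maximalIdeal 𝒪) 𝒪] [Finite (ResidueField 𝒪)]
    {ρbar : ResidualGaloisRep (ResidueField 𝒪)}
    {𝒟 : ∀ ⦃A : Type⦄ [CommRing A] [IsLocalRing A] [Algebra 𝒪 A], GaloisRepAdic A → Prop}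
    {N M : ℕ} (h : TwTanCard 𝒪 ρbar 𝒟 N) (hNM : N ≤ M) : TwTanCard 𝒪 ρbar 𝒟 M :=
  fun ι _ t ht => le_trans (h ι t ht) hNM

/-- `TwTanCard` when there is no deformation at all -/
theorem casm_twTanCard_of_isEmpty {𝒪 : Type} [CommRing 𝒪] [IsDomain 𝒪]
    [IsDiscreteValuationRing 𝒪]
    [IsAdicComplete (maximalIdeal 𝒪) 𝒪] [Finite (ResidueField 𝒪)]
    {ρbar : ResidualGaloisRep (ResidueField 𝒪)}
    {𝒟 : ∀ ⦃A : Type⦄ [CommRing A] [IsLocalRing A] [Algebra 𝒪 A], GaloisRepAdic A → Prop}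
    (h : TangentSub 𝒪 ρbar 𝒟 → False) (N : ℕ) : TwTanCard 𝒪 ρbar 𝒟 N := by
  intro ι _ t _
  haveI : IsEmpty ι := ⟨fun i => h (t i)⟩
  simp

/-- the characteristic of the residue field -/
theorem casm_charP {𝒪 : Type} [CommRing 𝒪] [IsLocalRing 𝒪] (p : ℕ) [hp : Fact p.Prime]
    (hp𝒪 : (p : 𝒪) ∈ maximalIdeal 𝒪) : CharP (ResidueField 𝒪) p := by
  have h0 : ((p : ℕ) : ResidueField 𝒪) = 0 := by
    have h1 : residue 𝒪 (p : 𝒪) = 0 := (residue_eq_zero_iff _).2 hp𝒪
    rw [map_natCast] at h1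
    exact h1
  exact (CharP.charP_iff_prime_eq_zero hp.out).2 h0

/-- a sum of indicator terms over a subsingleton set -/
theorem casm_sum_ite_le_one {ι : Type} [Fintype ι] [DecidableEq ι] (P : ι → Prop)
    [DecidablePred P] (f : ℕ) (h : ∀ i j, P i → P j → i = j) :
    (∑ i, if P i then f else 0) ≤ f := by
  classical
  rw [← Finset.sum_filter, Finset.sum_const, smul_eq_mul]
  have hc : (Finset.univ.filter P).card ≤ 1 := by
    rw [Finset.card_le_one]
    intro a ha b hb
    exact h a b (Finset.mem_filter.1 ha).2 (Finset.mem_filter.1 hb).2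
  calc (Finset.univ.filter P).card * f ≤ 1 * f := Nat.mul_le_mul_right f hc
    _ = f := one_mul f

/-- a sum of indicator terms over a set which injects into a set with `≤ r` elements -/
theorem casm_sum_ite_le {ι : Type} [Fintype ι] [DecidableEq ι] (P : ι → Prop)
    [DecidablePred P] (f r : ℕ) (g : ι → ℕ) (hg : Function.Injective g) (Q : Finset ℕ)
    (hQ : Q.card ≤ r) (h : ∀ i, P i → g i ∈ Q) :
    (∑ i, if P i then f else 0) ≤ r * f := by
  classical
  rw [← Finset.sum_filter, Finset.sum_const, smul_eq_mul]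
  have hc : (Finset.univ.filter P).card ≤ Q.card :=
    Finset.card_le_card_of_injOn g (fun i hi => h i (Finset.mem_filter.1 hi).2)
      (fun a _ b _ hab => hg hab)
  exact Nat.mul_le_mul_right f (le_trans hc hQ)

/-! ### The local conditions -/

section Loc

variable (p : ℕ) [Fact p.Prime] {k : Type} [Field k] [CharP k p] [Algebra (ZMod p) k] [Finite k]
  (ρbar : ResidualGaloisRep k)

/-- the unramified classes are level classes -/
theorem casm_unrH1_le (q : ℕ) [Fact q.Prime] (M : Rep.{0} (ZMod p) (GQq q)) :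
    unrH1 q M ≤ levH1 (towerLoc q) M := by
  intro x hx
  obtain ⟨c, hc1, -, hc3⟩ := (mem_unrH1 q M x).1 hx
  exact (mem_levH1_iff _ _ x).2 ⟨c, hc1, hc3⟩

/-- the local conditions consist of level classes -/
theorem casm_locCond_le (Smin : Finset ℕ)
    (Lp : Submodule (ZMod p) (H1 (locRep p (ad0Rep p ρbar))))
    (hLp : Lp ≤ levH1 (towerLoc p) (locRep p (ad0Rep p ρbar))) (q : ℕ) [Fact q.Prime] :
    locCond p ρbar Smin Lp q ≤ levH1 (towerLoc q) (locRep q (ad0Rep p ρbar)) := by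
  by_cases h : q = p
  · subst h
    exact le_trans (le_of_eq (locCond_self q ρbar Smin Lp)) hLp
  · by_cases hm : q ∈ Smin
    · rw [locCond_of_mem p ρbar Smin Lp q h hm]
      exact casm_unrH1_le p q _
    · rw [locCond_of_not_mem p ρbar Smin Lp q h hm]

/-- the local terms of the count -/
theorem casm_locCond_rank (hmin : StmtAdMin) (htw : StmtAdTw) (Smin : Finset ℕ)
    (Lp : Submodule (ZMod p) (H1 (locRep p (ad0Rep p ρbar))))
    (hLpfin : Module.Finite (ZMod p) Lp)
    (hLprk : finrank (ZMod p) Lp ≤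
      finrank (ZMod p) k + finrank (ZMod p) (locRep p (ad0Rep p ρbar)).ρ.invariants)
    (q : ℕ) [Fact q.Prime]
    (hq : q = p ∨ q ∈ Smin ∨ ((q : ZMod p) = 1 ∧ ρbar.IsUnramifiedAt q ∧ FrobDistinct ρbar q)) :
    Module.Finite (ZMod p) (locCond p ρbar Smin Lp q) ∧
      finrank (ZMod p) (locCond p ρbar Smin Lp q) ≤
        finrank (ZMod p) (locRep q (ad0Rep p ρbar)).ρ.invariants +
          (if q = p ∨ q ∉ Smin then finrank (ZMod p) k else 0) := by
  by_cases h : q = p
  · subst h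
    have e : locCond q ρbar Smin Lp q = Lp := locCond_self q ρbar Smin Lp
    rw [if_pos (Or.inl rfl), e]
    exact ⟨hLpfin, by omega⟩
  · by_cases hm : q ∈ Smin
    · rw [locCond_of_mem p ρbar Smin Lp q h hm, if_neg (by tauto)]
      obtain ⟨h1, h2⟩ := hmin p k ρbar q
      exact ⟨h1, by omega⟩
    · rw [locCond_of_not_mem p ρbar Smin Lp q h hm, if_pos (Or.inr hm)]
      obtain ⟨h3, h4, h5⟩ : (q : ZMod p) = 1 ∧ ρbar.IsUnramifiedAt q ∧ FrobDistinct ρbar q := by
        rcases hq with hq | hq | hq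
        · exact absurd hq h
        · exact absurd hq hm
        · exact hq
      exact htw p k ρbar q h3 h4 h5

end Loc

/-! ### Annihilator of the full local condition -/

/-- the exact annihilator of the full level cohomology is `0` (right kernel of local duality) -/
theorem casm_perp_top (hlr : StmtLocRight) {p : ℕ} [Fact p.Prime] {G : Type} [Group G]
    {ι : Type} [Fintype ι] {Gloc : ι → Type} [∀ v, Group (Gloc v)] (D : PTDatum p G ι Gloc)
    (A B : Rep.{0} (ZMod p) G) [FiniteDimensional (ZMod p) A] [FiniteDimensional (ZMod p) B]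
    (P : DualPair D.χ A B) (hA : TrivOnLevel D.𝒯 A) (hB : TrivOnLevel D.𝒯 B) (v : ι)
    (L : Submodule (ZMod p) (H1 (Rep.res (D.r v) A)))
    (L' : Submodule (ZMod p) (H1 (Rep.res (D.r v) B)))
    (hL : locH1 D A v ≤ L) (hperp : IsPerp D P v L L') (y : H1 (Rep.res (D.r v) B))
    (hy : y ∈ L') : y = 0 := by
  obtain ⟨hy1, hy2⟩ := (hperp y).1 hy
  obtain ⟨cy, hcy1, hcy2⟩ := (mem_levH1_iff (D.𝒯loc v) (Rep.res (D.r v) B) y).1 hy1
  have hcob : (cy : Gloc v → B.V) ∈ coboundaries₁ (Rep.res (D.r v) B) :=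
    hlr p G ι Gloc D A B P hA hB v cy cy.2 hcy1 (fun cx hcx hcxl => by
      have hxl : (H1π (Rep.res (D.r v) A)).hom (⟨cx, hcx⟩ : cocycles₁ (Rep.res (D.r v) A)) ∈
          locH1 D A v :=
        (mem_levH1_iff (D.𝒯loc v) (Rep.res (D.r v) A) _).2 ⟨⟨cx, hcx⟩, hcxl, rfl⟩
      exact hy2 _ (hL hxl) hxl ⟨cx, hcx⟩ cy hcxl hcy1 rfl hcy2)
  have h0 : (H1π (Rep.res (D.r v) B)).hom cy = 0 :=
    (groupCohomology.H1π_eq_zero_iff cy).2 hcob
  rw [hcy2] at h0
  exact h0

/-! ### The count -/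

/-- the inputs of the count (everything but the local condition at `p`, the Taylor–Wiles primes
and TW-S) -/
structure CoreInputs : Prop where
  gw : StmtGWFinal
  ec : StmtEC
  cg : StmtCmGlob
  cl : StmtCmLoc
  h90 : StmtH90Loc
  ex : StmtExistC
  sv : StmtSurvC
  locex : StmtLocExistQ
  pdepth : StmtPDepthTower
  perp : StmtPerpExists
  locRight : StmtLocRight
  gloFin : StmtGloFin
  adLevel : StmtAdLevel
  adRank : StmtAdRank
  archDual : StmtArchDual
  adArch : StmtAdArch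
  adGlob0 : StmtAdGlob0
  adMin : StmtAdMin
  adTw : StmtAdTw

section Count

variable {𝒪 : Type} [CommRing 𝒪] [IsDomain 𝒪] [IsDiscreteValuationRing 𝒪]
  [IsAdicComplete (maximalIdeal 𝒪) 𝒪] [Finite (ResidueField 𝒪)]

/-- membership in `primesOf` -/
theorem casm_mem_primesOf (T : Finset ℕ) (q : Nat.Primes) : q ∈ primesOf T ↔ (q : ℕ) ∈ T :=
  Finset.mem_subtype

/-- `ad⁰ ρ̄` is finite -/
theorem casm_finite_ad0 (p : ℕ) [Fact p.Prime] {k : Type} [Field k] [CharP k p] [Finite k]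
    (ρbar : ResidualGaloisRep k) : Finite (ad0Rep p ρbar).V := by
  haveI : Finite ρbar.V := Module.finite_of_finite k
  haveI : Finite (Module.End k ρbar.V) := DFunLike.finite _
  exact inferInstanceAs (Finite ↥(ad0Sub ρbar))

/-- the arithmetic of the count -/
theorem casm_arith (sel h0B h2B h1B f dA cA cB sumh0 sumL selB h0A r : ℕ)
    (hgw : sel + h0B + f + sumh0 ≤ selB + h0A + sumL)
    (hsumL : sumL ≤ sumh0 + f + r * f) (hselB : selB = 0) (hh0A : h0A = 0) :
    sel ≤ r * f := by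
  omega

/-- **The count**: the Selmer group of `ad⁰ ρ̄` with the conditions `selCond` has at most `|k|^r`
elements, if the `r` Taylor–Wiles primes kill the dual Selmer group and the local condition at
`p` has dimension `≤ f + h⁰(G_p, ad⁰)`. -/
theorem casm_sel_card (I : CoreInputs) (p : ℕ) [Fact p.Prime] [CharP (ResidueField 𝒪) p]
    [Algebra (ZMod p) (ResidueField 𝒪)]
    (ρbar : ResidualGaloisRep (ResidueField 𝒪)) (S Smin : Finset ℕ)
    (hyp : TWHyp 𝒪 p ρbar S Smin) (n r : ℕ) (qv : Fin r → ℕ)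
    (hfam : IsTWFamily p ρbar S n r qv)
    (hkill : ∀ x ∈ levH1 (towerS (primesOf (Smin ∪ Finset.univ.image qv)))
          ((ad0Rep p ρbar).dualTwist (cycloChar p)),
        (∀ (i : Fin r) (hq : (qv i).Prime),
          letI : Fact (qv i).Prime := ⟨hq⟩
          (groupCohomology.map (localGaloisToGlobal (qv i))
            (𝟙 (locRep (qv i) ((ad0Rep p ρbar).dualTwist (cycloChar p)))) 1).hom x = 0) →
        x = 0)
    (Lp : Submodule (ZMod p) (H1 (locRep p (ad0Rep p ρbar))))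
    (hLp : Lp ≤ levH1 (towerLoc p) (locRep p (ad0Rep p ρbar)))
    (hLpfin : Module.Finite (ZMod p) Lp)
    (hLprk : finrank (ZMod p) Lp ≤ finrank (ZMod p) (ResidueField 𝒪) +
      finrank (ZMod p) (locRep p (ad0Rep p ρbar)).ρ.invariants) :
    Finite ↥(selGroup p ρbar Smin Lp (primesOf (Smin ∪ Finset.univ.image qv))) ∧
      Nat.card ↥(selGroup p ρbar Smin Lp (primesOf (Smin ∪ Finset.univ.image qv))) ≤
        Nat.card (ResidueField 𝒪) ^ r := by
  classical
  have hp2 := hyp.hp2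
  have hpT : pPrime p ∈ primesOf (Smin ∪ Finset.univ.image qv) :=
    (casm_mem_primesOf _ _).2 (Finset.mem_union_left _ hyp.hpSmin)
  -- `ρ̄` is unramified outside `T`
  have hunr : ∀ q : Nat.Primes, q ∉ primesOf (Smin ∪ Finset.univ.image qv) →
      ρbar.IsUnramifiedAt (q : ℕ) := by
    intro q hq
    have h1 : (q : ℕ) ∉ Smin ∪ Finset.univ.image qv := fun h => hq ((casm_mem_primesOf _ _).2 h)
    have h2 : (q : ℕ) ∉ Smin := fun h => h1 (Finset.mem_union_left _ h)
    have h3 : (q : ℕ) ≠ p := fun h => h2 (h ▸ hyp.hpSmin)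
    by_contra hc
    exact h2 ((hyp.hmin q q.2 h3).2 hc)
  obtain ⟨hA, hB⟩ := I.adLevel p (ResidueField 𝒪) ρbar _ hpT hunr
  haveI : Finite (ad0Rep p ρbar).V := casm_finite_ad0 p ρbar
  haveI hAfd : FiniteDimensional (ZMod p) (ad0Rep p ρbar).V := Module.Finite.of_finite
  haveI hBfd : FiniteDimensional (ZMod p) ((ad0Rep p ρbar).dualTwist (cycloChar p)).V :=
    inferInstanceAs (FiniteDimensional (ZMod p) (Module.Dual (ZMod p) (ad0Rep p ρbar).V))
  haveI hkfd : Module.Finite (ZMod p) (ResidueField 𝒪) := Module.Finite.of_finite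
  -- the datum
  let D : PTDatum p GQ ↥(primesOf (Smin ∪ Finset.univ.image qv))
      (GlocS (primesOf (Smin ∪ Finset.univ.image qv))) :=
    concreteDatum p hp2 _ hpT I.cg I.cl I.h90 I.ex I.sv
  have hLE : LocExist D := fun v =>
    letI : Fact ((v : Nat.Primes) : ℕ).Prime := ⟨(v : Nat.Primes).2⟩
    I.locex p ((v : Nat.Primes) : ℕ)
  have hPD : HasPDepth D := fun v U hU => I.pdepth p _ hpT v U hU
  let P : DualPair D.χ (ad0Rep p ρbar) ((ad0Rep p ρbar).dualTwist (cycloChar p)) :=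
    DualPair.std (cycloChar p) (ad0Rep p ρbar)
  -- the local conditions and their annihilators
  have hperp := fun v => I.perp p GQ _ _ D _ _ P hA hB v
    (selCond p ρbar Smin Lp (primesOf (Smin ∪ Finset.univ.image qv)) v)
  choose L' hL' using hperp
  have hL : ∀ v, selCond p ρbar Smin Lp (primesOf (Smin ∪ Finset.univ.image qv)) v ≤
      locH1 D (ad0Rep p ρbar) v := fun v =>
    letI : Fact ((v : Nat.Primes) : ℕ).Prime := ⟨(v : Nat.Primes).2⟩
    casm_locCond_le p ρbar Smin Lp hLp ((v : Nat.Primes) : ℕ)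
  -- (EC)
  obtain ⟨hfin2, hec⟩ := I.ec p hp2 _ hpT I.cg I.cl I.h90 I.ex I.sv
    ((ad0Rep p ρbar).dualTwist (cycloChar p)) hB
  have harch := I.adArch p hp2 (ResidueField 𝒪) ρbar hyp.hdet
  have hdual := I.archDual p hp2 (ad0Rep p ρbar)
  have hrank := I.adRank p (ResidueField 𝒪) ρbar
  have hrankB : finrank (ZMod p) ((ad0Rep p ρbar).dualTwist (cycloChar p)).V =
      finrank (ZMod p) (ad0Rep p ρbar).V := Subspace.dual_finrank_eq
  have hEC : finrank (ZMod p) ↥(((ad0Rep p ρbar).dualTwist (cycloChar p)).ρ.invariants) +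
      finrank (ZMod p) (levH2 D.𝒯 ((ad0Rep p ρbar).dualTwist (cycloChar p))) +
        finrank (ZMod p) (ResidueField 𝒪) ≤
      finrank (ZMod p) ↥(levH1 D.𝒯 ((ad0Rep p ρbar).dualTwist (cycloChar p))) := by
    have h1 : finrank (ZMod p) ↥(((ad0Rep p ρbar).dualTwist (cycloChar p)).ρ.invariants) +
        finrank (ZMod p)
          (levH2 (towerS (primesOf (Smin ∪ Finset.univ.image qv)))
            ((ad0Rep p ρbar).dualTwist (cycloChar p))) +
        finrank (ZMod p) ((ad0Rep p ρbar).dualTwist (cycloChar p)).V =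
      finrank (ZMod p) ↥(levH1 (towerS (primesOf (Smin ∪ Finset.univ.image qv)))
          ((ad0Rep p ρbar).dualTwist (cycloChar p))) +
        finrank (ZMod p)
          ↥((Rep.res archimedeanLoc ((ad0Rep p ρbar).dualTwist (cycloChar p))).ρ.invariants) :=
      hec
    show finrank (ZMod p) ↥(((ad0Rep p ρbar).dualTwist (cycloChar p)).ρ.invariants) +
      finrank (ZMod p) (levH2 (towerS (primesOf (Smin ∪ Finset.univ.image qv)))
        ((ad0Rep p ρbar).dualTwist (cycloChar p))) +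
        finrank (ZMod p) (ResidueField 𝒪) ≤
      finrank (ZMod p) ↥(levH1 (towerS (primesOf (Smin ∪ Finset.univ.image qv)))
        ((ad0Rep p ρbar).dualTwist (cycloChar p)))
    omega
  -- Greenberg–Wiles
  have hgw := I.gw p GQ _ _ D hLE hPD (ad0Rep p ρbar) _ P hA hB
    (selCond p ρbar Smin Lp (primesOf (Smin ∪ Finset.univ.image qv))) L' hL hL'
    (finrank (ZMod p) (ResidueField 𝒪)) hfin2 hEC
  -- the dual Selmer group vanishes
  have hselB : ∀ x ∈ selLev D ((ad0Rep p ρbar).dualTwist (cycloChar p)) L', x = 0 := by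
    intro x hx
    obtain ⟨hx1, hx2⟩ := Submodule.mem_inf.1 hx
    refine hkill x hx1 (fun i hq => ?_)
    have hmem : (⟨qv i, hq⟩ : Nat.Primes) ∈ primesOf (Smin ∪ Finset.univ.image qv) :=
      (casm_mem_primesOf _ _).2 (Finset.mem_union_right _
        (Finset.mem_image_of_mem qv (Finset.mem_univ i)))
    let v : ↥(primesOf (Smin ∪ Finset.univ.image qv)) := ⟨⟨qv i, hq⟩, hmem⟩
    letI : Fact (qv i).Prime := ⟨hq⟩
    have hqS : qv i ∉ S := (hfam.2.1 i).2.1
    have hqSmin : qv i ∉ Smin := fun h => hqS (hyp.hSmin h)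
    have hqp : qv i ≠ p := fun h => hqSmin (h ▸ hyp.hpSmin)
    have hy := (mem_selmer_iff _ _ _ x).1 hx2 v
    have hLv : selCond p ρbar Smin Lp (primesOf (Smin ∪ Finset.univ.image qv)) v =
        levH1 (towerLoc (qv i)) (locRep (qv i) (ad0Rep p ρbar)) :=
      locCond_of_not_mem p ρbar Smin Lp (qv i) hqp hqSmin
    exact casm_perp_top I.locRight D (ad0Rep p ρbar) ((ad0Rep p ρbar).dualTwist (cycloChar p))
      P hA hB v _ (L' v) (le_of_eq hLv.symm) (hL' v) _ hy
  have hselB0 : finrank (ZMod p)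
      ↥(selLev D ((ad0Rep p ρbar).dualTwist (cycloChar p)) L') = 0 := by
    have hbot : selLev D ((ad0Rep p ρbar).dualTwist (cycloChar p)) L' = ⊥ :=
      (Submodule.eq_bot_iff _).2 hselB
    rw [hbot]
    exact finrank_bot _ _
  -- `H⁰(G_ℚ, ad⁰) = 0`
  have hh0A : finrank (ZMod p) ↥((ad0Rep p ρbar).ρ.invariants) = 0 := by
    rw [I.adGlob0 p hp2 (ResidueField 𝒪) ρbar hyp.habs]
    exact finrank_bot _ _
  -- the local terms
  have hterm : ∀ v : ↥(primesOf (Smin ∪ Finset.univ.image qv)),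
      finrank (ZMod p) ↥(selCond p ρbar Smin Lp (primesOf (Smin ∪ Finset.univ.image qv)) v) ≤
        finrank (ZMod p) ↥((Rep.res (D.r v) (ad0Rep p ρbar)).ρ.invariants) +
          ((if ((v : Nat.Primes) : ℕ) = p then finrank (ZMod p) (ResidueField 𝒪) else 0) +
            (if ((v : Nat.Primes) : ℕ) ∉ Smin then finrank (ZMod p) (ResidueField 𝒪) else 0)) := by
    intro v
    letI : Fact ((v : Nat.Primes) : ℕ).Prime := ⟨(v : Nat.Primes).2⟩
    have hvT : ((v : Nat.Primes) : ℕ) ∈ Smin ∪ Finset.univ.image qv :=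
      (casm_mem_primesOf _ _).1 v.2
    have hq : ((v : Nat.Primes) : ℕ) = p ∨ ((v : Nat.Primes) : ℕ) ∈ Smin ∨
        ((((v : Nat.Primes) : ℕ) : ZMod p) = 1 ∧ ρbar.IsUnramifiedAt ((v : Nat.Primes) : ℕ) ∧
          FrobDistinct ρbar ((v : Nat.Primes) : ℕ)) := by
      by_cases hm : ((v : Nat.Primes) : ℕ) ∈ Smin
      · exact Or.inr (Or.inl hm)
      · refine Or.inr (Or.inr ?_)
        rcases Finset.mem_union.1 hvT with h | h
        · exact absurd h hm
        · obtain ⟨i, -, hi⟩ := Finset.mem_image.1 h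
          have hvp : ((v : Nat.Primes) : ℕ) ≠ p := fun h => hm (h ▸ hyp.hpSmin)
          rw [← hi] at hm hvp ⊢
          refine ⟨?_, ?_, hfam.2.2 i⟩
          · have hdvd : p ∣ qv i - 1 :=
              dvd_trans (dvd_pow_self p (Nat.succ_ne_zero n)) (hfam.2.1 i).2.2
            have h0 : ((qv i - 1 : ℕ) : ZMod p) = 0 := (ZMod.natCast_eq_zero_iff _ _).2 hdvd
            have h1 : qv i = (qv i - 1) + 1 := by
              have := (hfam.2.1 i).1.pos
              omega
            rw [h1, Nat.cast_add, h0, Nat.cast_one, zero_add]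
          · by_contra hc
            exact hm ((hyp.hmin (qv i) (hfam.2.1 i).1 hvp).2 hc)
    have h1 := (casm_locCond_rank p ρbar I.adMin I.adTw Smin Lp hLpfin hLprk
      ((v : Nat.Primes) : ℕ) hq).2
    refine le_trans h1 (Nat.add_le_add_left ?_ _)
    by_cases hc1 : ((v : Nat.Primes) : ℕ) = p
    · rw [if_pos (Or.inl hc1), if_pos hc1]
      exact Nat.le_add_right _ _
    · by_cases hc2 : ((v : Nat.Primes) : ℕ) ∉ Smin
      · rw [if_pos (Or.inr hc2), if_neg hc1, if_pos hc2]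
        exact Nat.le_add_left _ _
      · rw [if_neg (by tauto)]
        exact Nat.zero_le _
  have hsumL : (∑ v : ↥(primesOf (Smin ∪ Finset.univ.image qv)),
      finrank (ZMod p)
        ↥(selCond p ρbar Smin Lp (primesOf (Smin ∪ Finset.univ.image qv)) v)) ≤
      (∑ v : ↥(primesOf (Smin ∪ Finset.univ.image qv)),
        finrank (ZMod p) ↥((Rep.res (D.r v) (ad0Rep p ρbar)).ρ.invariants)) +
        finrank (ZMod p) (ResidueField 𝒪) + r * finrank (ZMod p) (ResidueField 𝒪) := by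
    refine le_trans (Finset.sum_le_sum (fun v _ => hterm v)) ?_
    rw [Finset.sum_add_distrib, Finset.sum_add_distrib, add_assoc]
    refine Nat.add_le_add_left (Nat.add_le_add ?_ ?_) _
    · exact casm_sum_ite_le_one _ _
        (fun i j hi hj => Subtype.ext (Subtype.ext (hi.trans hj.symm)))
    · refine casm_sum_ite_le _ _ r (fun v => ((v : Nat.Primes) : ℕ))
        (fun a b hab => Subtype.ext (Subtype.ext hab)) (Finset.univ.image qv)
        (le_trans Finset.card_image_le (by simp)) (fun v hv => ?_)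
      rcases Finset.mem_union.1 ((casm_mem_primesOf _ _).1 v.2) with h | h
      · exact absurd h hv
      · exact h
  have hsel : finrank (ZMod p) ↥(selLev D (ad0Rep p ρbar)
      (selCond p ρbar Smin Lp (primesOf (Smin ∪ Finset.univ.image qv)))) ≤
      r * finrank (ZMod p) (ResidueField 𝒪) :=
    casm_arith _ _ 0 0 _ 0 0 0 _ _ _ _ r hgw hsumL hselB0 hh0A
  -- conclusion
  haveI hfinlev : Finite ↥(levH1 D.𝒯 (ad0Rep p ρbar)) :=
    I.gloFin p GQ _ _ D (ad0Rep p ρbar) hA
  have hle : selGroup p ρbar Smin Lp (primesOf (Smin ∪ Finset.univ.image qv)) ≤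
      levH1 D.𝒯 (ad0Rep p ρbar) := inf_le_left
  haveI hfinsel : Finite ↥(selGroup p ρbar Smin Lp (primesOf (Smin ∪ Finset.univ.image qv))) :=
    Finite.of_injective (Submodule.inclusion hle) (Submodule.inclusion_injective hle)
  refine ⟨hfinsel, ?_⟩
  haveI : Module.Finite (ZMod p)
      ↥(selGroup p ρbar Smin Lp (primesOf (Smin ∪ Finset.univ.image qv))) :=
    Module.Finite.of_finite
  rw [Module.natCard_eq_pow_finrank (K := ZMod p)
      (V := ↥(selGroup p ρbar Smin Lp (primesOf (Smin ∪ Finset.univ.image qv)))),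
    Module.natCard_eq_pow_finrank (K := ZMod p) (V := ResidueField 𝒪), Nat.card_zmod,
    ← pow_mul, mul_comm]
  exact Nat.pow_le_pow_right (Fact.out : p.Prime).pos hsel

/-- the ordinary classes are level classes -/
theorem casm_ordH1_le (p : ℕ) [Fact p.Prime] {k : Type} [Field k] [CharP k p]
    (ρbar : ResidualGaloisRep k) (Lbar : Submodule k ρbar.V) (q : ℕ) [Fact q.Prime] :
    ordH1 p ρbar Lbar q ≤ levH1 (towerLoc q) (locRep q (ad0Rep p ρbar)) := by
  intro x hx
  obtain ⟨c, hc1, -, hc3⟩ := (mem_ordH1 p ρbar Lbar q x).1 hx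
  exact (mem_levH1_iff _ _ x).2 ⟨c, hc1, hc3⟩

/-- **TW-Core, ordinary half.** -/
theorem stmtCoreOrd_of (I : CoreInputs) (hkill : StmtKillAll 𝒪) (hsel : StmtSelCardOrd)
    (hres : StmtResStrict) (hord : StmtAdOrd) : StmtCoreOrd 𝒪 := by
  intro p _ ρbar S Smin hyp
  haveI : CharP (ResidueField 𝒪) p := casm_charP p hyp.hp𝒪
  letI : Algebra (ZMod p) (ResidueField 𝒪) := ZMod.algebra (ResidueField 𝒪) p
  by_cases hex : ∃ Lbar : Submodule (ResidueField 𝒪) ρbar.V, IsStrictOrdLine p ρbar Lbar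
  · obtain ⟨Lbar, hLbar⟩ := hex
    obtain ⟨r, hr⟩ := hkill p ρbar S Smin hyp
    refine ⟨r, fun n => ?_⟩
    obtain ⟨qv, hfam, hk⟩ := hr n
    refine ⟨qv, hfam, ?_⟩
    obtain ⟨hfin, hrk⟩ := hord p hyp.hp2 (ResidueField 𝒪) ρbar Lbar hLbar
    obtain ⟨hsfin, hscard⟩ := casm_sel_card I p ρbar S Smin hyp n r qv hfam hk
      (ordH1 p ρbar Lbar p) (casm_ordH1_le p ρbar Lbar p) hfin hrk
    exact casm_twTanCard_mono (hsel 𝒪 p ρbar hyp.hp2 hyp.habs Smin (Finset.univ.image qv)
      hyp.hpSmin hyp.hmin Lbar hLbar.1 hsfin) hscard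
  · refine ⟨0, fun n => ⟨Fin.elim0, ⟨fun i => i.elim0, fun i => i.elim0, fun i => i.elim0⟩,
      casm_twTanCard_of_isEmpty (fun t => hex ?_) _⟩⟩
    obtain ⟨ρ, h𝒟, hresid⟩ := t
    exact hres 𝒪 p ρbar ρ hresid h𝒟.1.2.1

/-- **TW-Core, flat half.** -/
theorem stmtCoreFlat_of (I : CoreInputs) (hkill : StmtKillAll 𝒪) (hsel : StmtSelCardFlat)
    (hW : StmtWFlat) : StmtCoreFlat 𝒪 := by
  intro p _ ρbar S Smin hyp
  haveI : CharP (ResidueField 𝒪) p := casm_charP p hyp.hp𝒪
  letI : Algebra (ZMod p) (ResidueField 𝒪) := ZMod.algebra (ResidueField 𝒪) p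
  obtain ⟨D₀⟩ := nonempty_rigidDatum (𝒪 := 𝒪) ρbar hyp.habs
  obtain ⟨r, hr⟩ := hkill p ρbar S Smin hyp
  refine ⟨r, fun n => ?_⟩
  obtain ⟨qv, hfam, hk⟩ := hr n
  refine ⟨qv, hfam, ?_⟩
  obtain ⟨hle, hfin, hrk⟩ := hW p hyp.hp2 𝒪 ρbar D₀ hyp.hdet hyp.hsplit
  obtain ⟨hsfin, hscard⟩ := casm_sel_card I p ρbar S Smin hyp n r qv hfam hk
    (flatH1 p D₀) hle hfin hrk
  exact casm_twTanCard_mono (hsel 𝒪 p ρbar D₀ hyp.hp2 Smin (Finset.univ.image qv)
    hyp.hpSmin hyp.hmin (flatH1 p D₀)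
    (fun ρ c hc hdet hflat => flatClass_mem_flatH1 p D₀ ρ c hc hdet hflat) hsfin) hscard

end Count

end Fermat.Agent.TW.Core

end
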