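/-
Project TW (S56) — TW-Core, FINAL WIRING (helper63).
S56 from the statements of the sub-projects which are still open; every landed piece is plugged
in here.  When the four inputs of `s56_of_open` are theorems, `Fermat/Agent/S56.lean` is one line.
-/
import Fermat.Agent.TW.Core.Asm
import Fermat.Agent.TW.BCFinal
import Fermat.Agent.TW.S.SelCardFinal
import Fermat.Agent.TW.S.ResStrict
import Fermat.Agent.TW.S.AdLevel
import Fermat.Agent.TW.S.AdRank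
import Fermat.Agent.TW.L.Final2
import Fermat.Agent.TW.L.ArchDual
import Fermat.Agent.TW.F.Final
import Fermat.Agent.TW.F.Perp
import Fermat.Agent.TW.F.LocFinal
import Fermat.Agent.TW.F.GloFin
import Fermat.Agent.TW.E.PDepthTower
import Fermat.Agent.PT.B.FinalWire
import Fermat.Agent.PT.G3.GBSDShapiro

set_option autoImplicit false

namespace Fermat.Agent.TW.Core

open Polynomial IsLocalRing

/-- the inputs of the count, from the two open statements `F.StmtH2Perm` (TW-F) and `E.StmtEC`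
(TW-E) -/
theorem coreInputs_of (hH2 : Fermat.Agent.TW.F.StmtH2Perm) (hEC : Fermat.Agent.TW.E.StmtEC) :
    CoreInputs where
  gw := Fermat.Agent.TW.F.stmtGWFinal_of_h2perm hH2
  ec := hEC
  cg := Fermat.Agent.PT.B.stmtCmGlob_of_GA Fermat.Agent.PT.G3.stmtGA_B
  cl := Fermat.Agent.PT.B.stmtCmLoc
  h90 := Fermat.Agent.PT.B.stmtH90Loc
  ex := Fermat.Agent.PT.B.stmtExistC_of_GA Fermat.Agent.PT.G3.stmtGA_B
    Fermat.Agent.PT.X.stmtExistTL
  sv := Fermat.Agent.PT.B.stmtSurvC_of_GB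
    (Fermat.Agent.PT.B.stmtGB_of_sdShapiro Fermat.Agent.PT.G3.stmtSDShapiro)
  locex := Fermat.Agent.TW.L.stmtLocExistQ
  pdepth := Fermat.Agent.TW.E.stmtPDepthTower
  perp := Fermat.Agent.TW.F.stmtPerpExists
  locRight := Fermat.Agent.TW.F.stmtLocRight
  gloFin := Fermat.Agent.TW.F.stmtGloFin
  adLevel := Fermat.Agent.TW.S.stmtAdLevel
  adRank := Fermat.Agent.TW.S.stmtAdRank
  archDual := Fermat.Agent.TW.L.stmtArchDual
  adArch := Fermat.Agent.TW.L.stmtAdArch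
  adGlob0 := Fermat.Agent.TW.L.stmtAdGlob0
  adMin := Fermat.Agent.TW.L.stmtAdMin
  adTw := Fermat.Agent.TW.L.stmtAdTw

variable {𝒪 : Type} [CommRing 𝒪] [IsDomain 𝒪] [IsDiscreteValuationRing 𝒪]
  [IsAdicComplete (maximalIdeal 𝒪) 𝒪] [Finite (ResidueField 𝒪)]

/-- **S56 from the four open statements**: `F.StmtH2Perm` (TW-F, end of the nine-term sequence),
`E.StmtEC` (TW-E, global Euler characteristic), `StmtKillAll` (TW-G, the Taylor–Wiles primes kill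
the dual Selmer group) and `W.StmtWFlat` (TW-W, the flat local condition at `p`). -/
theorem s56_of_open (hH2 : Fermat.Agent.TW.F.StmtH2Perm) (hEC : Fermat.Agent.TW.E.StmtEC)
    (hkill : StmtKillAll 𝒪) (hW : Fermat.Agent.TW.W.StmtWFlat)
    (p : ℕ) [Fact p.Prime] (hp2 : p ≠ 2) (hp𝒪 : (p : 𝒪) ∈ maximalIdeal 𝒪)
    (ρbar : ResidualGaloisRep (ResidueField 𝒪))
    (habs : ρbar.IsAbsolutelyIrreducible)
    (hdet : (GaloisRepAdic.ofResidualGaloisRep ρbar).DetIsCyclotomic p)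
    (hsplit : ∀ σ : AlgebraicClosure ℚ ≃ₐ[ℚ] AlgebraicClosure ℚ,
      ∃ α β : ResidueField 𝒪, LinearMap.charpoly (ρbar.ρ σ) = (X - C α) * (X - C β))
    (hTW : ∀ (K : Type) [Field K] [Algebra (ResidueField 𝒪) K]
      (G : Subgroup (AlgebraicClosure ℚ ≃ₐ[ℚ] AlgebraicClosure ℚ)), G.index = 2 →
      ∀ V : Submodule K (ρbar.baseChange K).V,
        (∀ σ ∈ G, ∀ x ∈ V, (ρbar.baseChange K).ρ σ x ∈ V) → V = ⊥ ∨ V = ⊤)
    (S Smin : Finset ℕ) (hpSmin : p ∈ Smin) (hSmin : Smin ⊆ S) (hS : ∀ q ∈ S, q.Prime)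
    (hmin : ∀ q : ℕ, q.Prime → q ≠ p → (q ∈ Smin ↔ ¬ ρbar.IsUnramifiedAt q)) :
    (∃ r : ℕ, ∀ n : ℕ, ∃ qv : Fin r → ℕ, Function.Injective qv ∧
      (∀ i, (qv i).Prime ∧ qv i ∉ S ∧ p ^ (n + 1) ∣ qv i - 1) ∧
      (∀ i, ∀ P : ValuationSubring (AlgebraicClosure ℚ), P.LiesOverPrime (qv i) →
        ∀ φ : AlgebraicClosure ℚ ≃ₐ[ℚ] AlgebraicClosure ℚ, P.IsFrobeniusAt φ (qv i) →
          ∃ α β : ResidueField 𝒪, α ≠ β ∧ LinearMap.charpoly (ρbar.ρ φ) = (X - C α) * (X - C β)) ∧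
      ∀ DQ : GaloisRep.DeformationRingData 𝒪 ρbar (fun _A _ _ _ ρ =>
          GaloisRep.strictOrdinaryCondition 𝒪 p (Smin ∪ Finset.univ.image qv) ρ ∧
            ∀ q ∈ Smin, q.Prime → q ≠ p → ρ.IsUnipotentOnInertiaAt q),
        ∃ γ : MvPowerSeries (Fin r) 𝒪 →ₐ[𝒪] DQ.R, Function.Surjective γ) ∧
    (∃ r : ℕ, ∀ n : ℕ, ∃ qv : Fin r → ℕ, Function.Injective qv ∧
      (∀ i, (qv i).Prime ∧ qv i ∉ S ∧ p ^ (n + 1) ∣ qv i - 1) ∧
      (∀ i, ∀ P : ValuationSubring (AlgebraicClosure ℚ), P.LiesOverPrime (qv i) →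
        ∀ φ : AlgebraicClosure ℚ ≃ₐ[ℚ] AlgebraicClosure ℚ, P.IsFrobeniusAt φ (qv i) →
          ∃ α β : ResidueField 𝒪, α ≠ β ∧ LinearMap.charpoly (ρbar.ρ φ) = (X - C α) * (X - C β)) ∧
      ∀ DQ : GaloisRep.DeformationRingData 𝒪 ρbar (fun _A _ _ _ ρ =>
          GaloisRep.flatCondition 𝒪 p (Smin ∪ Finset.univ.image qv) ρ ∧
            ∀ q ∈ Smin, q.Prime → q ≠ p → ρ.IsUnipotentOnInertiaAt q),
        ∃ γ : MvPowerSeries (Fin r) 𝒪 →ₐ[𝒪] DQ.R, Function.Surjective γ) :=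
  Fermat.Agent.TW.s56_of_core
    (stmtCoreOrd_of (coreInputs_of hH2 hEC) hkill Fermat.Agent.TW.S.stmtSelCardOrd
      Fermat.Agent.TW.S.stmtResStrict Fermat.Agent.TW.L.stmtAdOrd)
    (stmtCoreFlat_of (coreInputs_of hH2 hEC) hkill Fermat.Agent.TW.S.stmtSelCardFlat hW)
    (Fermat.Agent.TW.stmtBCOrd 𝒪) (Fermat.Agent.TW.stmtBCFlat 𝒪)
    p hp2 hp𝒪 ρbar habs hdet hsplit hTW S Smin hpSmin hSmin hS hmin

end Fermat.Agent.TW.Core
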