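/-
Project TW (S56) — TW-Core, FINAL WIRING, part 2 (helper63).
TW-F (`StmtH2Perm`) and TW-G (`StmtKillAll`) are complete: S56 from the two statements which are
still open, `E.StmtEC` (TW-E) and `W.StmtWFlat` (TW-W).
-/
import Fermat.Agent.TW.Core.Final
import Fermat.Agent.TW.F.H2pGlue
import Fermat.Agent.TW.F.H2pSeedMod
import Fermat.Agent.TW.F.H2pProj
import Fermat.Agent.TW.F.H2pTransl
import Fermat.Agent.TW.F.H2pCycU
import Fermat.Agent.TW.F.H2pShInj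
import Fermat.Agent.TW.F.H2pUntw
import Fermat.Agent.TW.G.KillAllFinal

set_option autoImplicit false

namespace Fermat.Agent.TW.Core

open Polynomial IsLocalRing

/-- **F-h2perm**, unconditional (all pieces of the block of helper55 are landed). -/
theorem core_stmtH2Perm : Fermat.Agent.TW.F.StmtH2Perm :=
  Fermat.Agent.TW.F.stmtH2Perm_of Fermat.Agent.TW.F.stmtH2pSeedMod
    Fermat.Agent.TW.F.stmtH2pProj Fermat.Agent.TW.F.stmtH2pTransl Fermat.Agent.TW.F.stmtH2pCycU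
    Fermat.Agent.TW.F.stmtH2pShInj Fermat.Agent.TW.F.stmtH2pUntw

/-- the Greenberg–Wiles inequality, unconditional -/
theorem core_stmtGWFinal : Fermat.Agent.TW.F.StmtGWFinal :=
  Fermat.Agent.TW.F.stmtGWFinal_of_h2perm core_stmtH2Perm

variable {𝒪 : Type} [CommRing 𝒪] [IsDomain 𝒪] [IsDiscreteValuationRing 𝒪]
  [IsAdicComplete (maximalIdeal 𝒪) 𝒪] [Finite (ResidueField 𝒪)]

/-- **S56 from the two open statements** `E.StmtEC` (TW-E, global Euler characteristic) and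
`W.StmtWFlat` (TW-W, the flat local condition at `p`). -/
theorem s56_of_EC_WFlat (hEC : Fermat.Agent.TW.E.StmtEC) (hW : Fermat.Agent.TW.W.StmtWFlat)
    (p : ℕ) [Fact p.Prime] (hp2 : p ≠ 2) (hp𝒪 : (p : 𝒪) ∈ maximalIdeal 𝒪)
    (ρbar : ResidualGaloisRep (ResidueField 𝒪))
    (habs : ρbar.IsAbsolutelyIrreducible)
    (hdet : (GaloisRepAdic.ofResidualGaloisRep ρbar).DetIsCyclotomic p)
    (hsplit : ∀ σ : AlgebraicClosure ℚ ≃ₐ[ℚ] AlgebraicClosure ℚ,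
      ∃ α β : ResidueField 𝒪, LinearMap.charpoly (ρbar.ρ σ) = (X - C α) * (X - C β))
    (hTW : ∀ (K : Type) [Field K] [Algebra (ResidueField 𝒪) K]
      (G : Subgroup (AlgebraicClosure ℚ ≃ₐ[ℚ] AlgebraicClosure ℚ)), G.index = 2 →
      ∀ V : Submodule K (ρbar.baseChange K).V,
        (∀ σ ∈ G, ∀ x ∈ V, (ρbar.baseChange K).ρ σ x ∈ V) → V = ⊥ ∨ V = ⊤)
    (S Smin : Finset ℕ) (hpSmin : p ∈ Smin) (hSmin : Smin ⊆ S) (hS : ∀ q ∈ S, q.Prime)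
    (hmin : ∀ q : ℕ, q.Prime → q ≠ p → (q ∈ Smin ↔ ¬ ρbar.IsUnramifiedAt q)) :
    (∃ r : ℕ, ∀ n : ℕ, ∃ qv : Fin r → ℕ, Function.Injective qv ∧
      (∀ i, (qv i).Prime ∧ qv i ∉ S ∧ p ^ (n + 1) ∣ qv i - 1) ∧
      (∀ i, ∀ P : ValuationSubring (AlgebraicClosure ℚ), P.LiesOverPrime (qv i) →
        ∀ φ : AlgebraicClosure ℚ ≃ₐ[ℚ] AlgebraicClosure ℚ, P.IsFrobeniusAt φ (qv i) →
          ∃ α β : ResidueField 𝒪, α ≠ β ∧ LinearMap.charpoly (ρbar.ρ φ) = (X - C α) * (X - C β)) ∧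
      ∀ DQ : GaloisRep.DeformationRingData 𝒪 ρbar (fun _A _ _ _ ρ =>
          GaloisRep.strictOrdinaryCondition 𝒪 p (Smin ∪ Finset.univ.image qv) ρ ∧
            ∀ q ∈ Smin, q.Prime → q ≠ p → ρ.IsUnipotentOnInertiaAt q),
        ∃ γ : MvPowerSeries (Fin r) 𝒪 →ₐ[𝒪] DQ.R, Function.Surjective γ) ∧
    (∃ r : ℕ, ∀ n : ℕ, ∃ qv : Fin r → ℕ, Function.Injective qv ∧
      (∀ i, (qv i).Prime ∧ qv i ∉ S ∧ p ^ (n + 1) ∣ qv i - 1) ∧
      (∀ i, ∀ P : ValuationSubring (AlgebraicClosure ℚ), P.LiesOverPrime (qv i) →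
        ∀ φ : AlgebraicClosure ℚ ≃ₐ[ℚ] AlgebraicClosure ℚ, P.IsFrobeniusAt φ (qv i) →
          ∃ α β : ResidueField 𝒪, α ≠ β ∧ LinearMap.charpoly (ρbar.ρ φ) = (X - C α) * (X - C β)) ∧
      ∀ DQ : GaloisRep.DeformationRingData 𝒪 ρbar (fun _A _ _ _ ρ =>
          GaloisRep.flatCondition 𝒪 p (Smin ∪ Finset.univ.image qv) ρ ∧
            ∀ q ∈ Smin, q.Prime → q ≠ p → ρ.IsUnipotentOnInertiaAt q),
        ∃ γ : MvPowerSeries (Fin r) 𝒪 →ₐ[𝒪] DQ.R, Function.Surjective γ) :=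
  s56_of_open core_stmtH2Perm hEC (Fermat.Agent.TW.G.stmtKillAll 𝒪) hW
    p hp2 hp𝒪 ρbar habs hdet hsplit hTW S Smin hpSmin hSmin hS hmin

end Fermat.Agent.TW.Core
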